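import Mathlib

/-!
# K-machine, piece K4: Krull dimension of power series rings

`ringKrullDim A⟦X⟧ = ringKrullDim A + 1` and
`ringKrullDim (MvPowerSeries (Fin n) A) = ringKrullDim A + n` for a Noetherian ring `A`.
-/

set_option autoImplicit false

namespace Fermat.Agent.RT.K4

open Function

theorem rtk4_X_mem_jacobson (A : Type*) [CommRing A] :
    (PowerSeries.X : PowerSeries A) ∈ Ring.jacobson (PowerSeries A) := by
  rw [← Ideal.jacobson_bot, Ideal.mem_jacobson_bot]
  intro y
  rw [PowerSeries.isUnit_iff_constantCoeff]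
  simp

theorem rtk4_dim_powerSeries_le (A : Type*) [CommRing A] [IsNoetherianRing A] :
    ringKrullDim (PowerSeries A) ≤ ringKrullDim A + 1 := by
  have h1 := ringKrullDim_le_ringKrullDim_quotient_add_card
    ({PowerSeries.X} : Finset (PowerSeries A)) (by
      intro x hx
      rw [Finset.coe_singleton, Set.mem_singleton_iff] at hx
      rw [hx]
      exact rtk4_X_mem_jacobson A)
  have h2 : ringKrullDim (PowerSeries A ⧸
      Ideal.span ((({PowerSeries.X} : Finset (PowerSeries A)) : Set (PowerSeries A)))) ≤
      ringKrullDim A := by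
    refine ringKrullDim_le_of_surjective ((Ideal.Quotient.mk _).comp (PowerSeries.C (R := A))) ?_
    intro y
    obtain ⟨g, rfl⟩ := Ideal.Quotient.mk_surjective y
    refine ⟨PowerSeries.constantCoeff g, ?_⟩
    rw [RingHom.comp_apply, eq_comm, ← sub_eq_zero, ← map_sub, Ideal.Quotient.eq_zero_iff_mem,
      Finset.coe_singleton, Ideal.mem_span_singleton, PowerSeries.X_dvd_iff]
    simp
  refine h1.trans ?_
  rw [Finset.card_singleton]
  exact add_le_add h2 (le_of_eq (by norm_num))

theorem rtk4_dim_powerSeries (A : Type*) [CommRing A] [IsNoetherianRing A] :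
    ringKrullDim (PowerSeries A) = ringKrullDim A + 1 :=
  le_antisymm (rtk4_dim_powerSeries_le A) ringKrullDim_succ_le_ringKrullDim_powerseries

theorem rtk4_dim_mvPowerSeries (A : Type*) [CommRing A] [IsNoetherianRing A] (n : ℕ) :
    ringKrullDim (MvPowerSeries (Fin n) A) = ringKrullDim A + n := by
  induction n with
  | zero =>
    rw [ringKrullDim_eq_of_ringEquiv (MvPowerSeries.isEmptyEquiv (σ := Fin 0) (R := A)).toRingEquiv]
    simp
  | succ n ih =>
    rw [ringKrullDim_eq_of_ringEquiv (MvPowerSeries.finSuccEquiv A n).toRingEquiv,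
      rtk4_dim_powerSeries, ih]
    push_cast
    rw [add_assoc]

/-- The dimension of a power series ring over a local Noetherian ring is finite. -/
theorem rtk4_dim_mvPowerSeries_ne_top (A : Type*) [CommRing A] [IsNoetherianRing A]
    [IsLocalRing A] (n : ℕ) : ringKrullDim (MvPowerSeries (Fin n) A) ≠ ⊤ :=
  ringKrullDim_ne_top

end Fermat.Agent.RT.K4
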