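import Fermat.Agent.RT.K4.Matrix

/-!
# K-machine, piece K4: the output point in the base Hecke ring `T0`

`rtk4_out_T0` : in the situation of `rtk4_out_matrix`, let `T0` be a commutative `O`-algebra
acting faithfully on the base `(S ⧸ 𝔞)^d` (`j : T0 →ₐ[O] M_d(S ⧸ 𝔞)` injective) through which
`R1` acts on the base (`hbase`).  Then there is a prime `𝔓` of `T0` with `λ ∉ 𝔓` which contains
`θ(Iur)`, where `θ : R0 → T0` is the action of the local ring on the base.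
-/

set_option autoImplicit false
set_option linter.style.haveILetI false

namespace Fermat.Agent.RT.K4

open Function

section Aux

variable {S : Type*} [CommRing S] {d : ℕ}

theorem rtk4_map_algebraMap_mk (A : Ideal S) (s : S) :
    (algebraMap S (Matrix (Fin d) (Fin d) S) s).map (Ideal.Quotient.mk A) =
      algebraMap (S ⧸ A) (Matrix (Fin d) (Fin d) (S ⧸ A)) (Ideal.Quotient.mk A s) := by
  ext i j
  simp only [Matrix.map_apply, Matrix.algebraMap_matrix_apply]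
  split_ifs <;> simp

end Aux

section Integral

variable {R T C : Type*} [CommRing R] [CommRing T] [CommRing C] {d : ℕ}

/-- A commutative ring `T` of `d × d` matrices over `C` is integral over any ring `R` mapping to
`T` whose image contains the scalars (Cayley–Hamilton). -/
theorem rtk4_isIntegral_of_matrix (j : T →+* Matrix (Fin d) (Fin d) C) (hj : Injective j)
    (ρ : R →+* T)
    (hscal : ∀ c : C, ∃ r : R, j (ρ r) = algebraMap C (Matrix (Fin d) (Fin d) C) c) :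
    ρ.IsIntegral := by
  intro t
  have hlift : ((j t).charpoly.map (algebraMap C (Matrix (Fin d) (Fin d) C))) ∈
      Polynomial.lifts (j.comp ρ) := by
    rw [Polynomial.lifts_iff_coeff_lifts]
    intro n
    rw [Polynomial.coeff_map]
    obtain ⟨r, hr⟩ := hscal ((j t).charpoly.coeff n)
    exact ⟨r, hr⟩
  obtain ⟨q, hq, -, hmonic⟩ := Polynomial.lifts_and_natDegree_eq_and_monic hlift
    ((Matrix.charpoly_monic (j t)).map _)
  refine ⟨q, hmonic, ?_⟩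
  apply hj
  rw [Polynomial.hom_eval₂, map_zero, Polynomial.eval₂_eq_eval_map, hq, Polynomial.eval_map,
    ← Polynomial.aeval_def]
  exact Matrix.aeval_self_charpoly (j t)

end Integral

section Out

variable {O : Type*} [CommRing O] {S : Type*} [CommRing S] [Algebra O S]
  {R0 R1 Rχ Rb : Type*} [CommRing R0] [CommRing R1] [Algebra O R1]
  [CommRing Rχ] [Algebra O Rχ] [CommRing Rb]

/-- **The output of the machine in the base Hecke ring** (from `dim Rχ ≤ dim S`). -/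
theorem rtk4_out_T0_of_dim [IsDomain S] (hS : ringKrullDim S ≠ ⊤)
    [IsNoetherianRing R1] [IsNoetherianRing Rχ] [IsDomain Rχ]
    (hRS : ringKrullDim Rχ ≤ ringKrullDim S)
    (lam : O) (hlam0 : algebraMap O S lam ≠ 0)
    (𝔞 : Ideal S) [𝔞.IsPrime] (hlam𝔞 : algebraMap O S lam ∉ 𝔞)
    (f1 : R1 →+* Rb) (fχ : Rχ →+* Rb) (hf1 : Surjective f1) (hfχ : Surjective fχ)
    (hk1 : RingHom.ker f1 ≤ Ideal.span {algebraMap O R1 lam})
    (hkχ : fχ (algebraMap O Rχ lam) = 0)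
    {d : ℕ} (hd : 0 < d)
    (ρ1 : R1 →ₐ[O] Matrix (Fin d) (Fin d) S) (ρχ : Rχ →ₐ[O] Matrix (Fin d) (Fin d) S)
    (hcong : ∀ r1 rχ, f1 r1 = fχ rχ →
      (ρ1 r1).map (Ideal.Quotient.mk (Ideal.span {algebraMap O S lam})) =
        (ρχ rχ).map (Ideal.Quotient.mk (Ideal.span {algebraMap O S lam})))
    (hscal1 : ∀ s : S, ∃ r, ρ1 r = algebraMap S (Matrix (Fin d) (Fin d) S) s)
    (hscalχ : ∀ s : S, ∃ r, ρχ r = algebraMap S (Matrix (Fin d) (Fin d) S) s)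
    (ι : R0 →+* R1) (Iur : Ideal R0)
    (𝔮 : Ideal R1) [𝔮.IsPrime] (h𝔮 : algebraMap O R1 lam ∈ 𝔮)
    (hCr : ∀ x ∈ Iur, ∃ (e : ℕ) (D : R1), D ∉ 𝔮 ∧ algebraMap O R1 lam ^ e * D * ι x = 0)
    {T0 : Type*} [CommRing T0] [Algebra O T0]
    (j : T0 →ₐ[O] Matrix (Fin d) (Fin d) (S ⧸ 𝔞)) (hj : Injective j)
    (hbase : ∀ r1 : R1, ∃ t : T0, j t = (ρ1 r1).map (Ideal.Quotient.mk 𝔞))
    (θ : R0 → T0) (hθ : ∀ r0 : R0, j (θ r0) = (ρ1 (ι r0)).map (Ideal.Quotient.mk 𝔞)) :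
    ∃ 𝔓 : Ideal T0, 𝔓.IsPrime ∧ algebraMap O T0 lam ∉ 𝔓 ∧ ∀ x ∈ Iur, θ x ∈ 𝔓 := by
  obtain ⟨P, hPprime, hker, hlamP, hIur⟩ := rtk4_out_matrix_of_dim hS hRS lam hlam0 𝔞 hlam𝔞 f1 fχ
    hf1 hfχ hk1 hkχ hd ρ1 ρχ hcong hscal1 hscalχ ι Iur 𝔮 h𝔮 hCr
  -- the action of `R1` on the base, as a ring homomorphism to `T0`
  choose ρb hρb using hbase
  have hρb' : ∀ r, j (ρb r) = (Ideal.Quotient.mk 𝔞).mapMatrix (ρ1 r) := hρb
  let ρbar : R1 →+* T0 :=
    { toFun := ρb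
      map_one' := hj (by
        rw [hρb', map_one ρ1, map_one (Ideal.Quotient.mk 𝔞).mapMatrix, map_one j])
      map_mul' := fun a b => hj (by
        rw [map_mul j, hρb', hρb', hρb', map_mul ρ1, map_mul (Ideal.Quotient.mk 𝔞).mapMatrix])
      map_zero' := hj (by
        rw [hρb', map_zero ρ1, map_zero (Ideal.Quotient.mk 𝔞).mapMatrix, map_zero j])
      map_add' := fun a b => hj (by
        rw [map_add j, hρb', hρb', hρb', map_add ρ1, map_add (Ideal.Quotient.mk 𝔞).mapMatrix]) }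
  have hρbar : ∀ r, j (ρbar r) = (ρ1 r).map (Ideal.Quotient.mk 𝔞) := hρb
  have hint : ρbar.IsIntegral := by
    refine rtk4_isIntegral_of_matrix (j : T0 →+* Matrix (Fin d) (Fin d) (S ⧸ 𝔞)) hj ρbar ?_
    intro c
    obtain ⟨s, rfl⟩ := Ideal.Quotient.mk_surjective c
    obtain ⟨r, hr⟩ := hscal1 s
    refine ⟨r, ?_⟩
    show j (ρbar r) = _
    rw [hρbar, hr, rtk4_map_algebraMap_mk]
  letI : Algebra R1 T0 := ρbar.toAlgebra
  haveI : Algebra.IsIntegral R1 T0 := ⟨hint⟩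
  obtain ⟨Q, -, hQprime, hQ⟩ := Ideal.exists_ideal_over_prime_of_isIntegral P (⊥ : Ideal T0) (by
    intro r hr
    rw [Ideal.mem_comap, Ideal.mem_bot] at hr
    apply hker
    have h0 : ρbar r = 0 := hr
    rw [← hρbar, h0, map_zero])
  have hmem : ∀ r : R1, ρbar r ∈ Q ↔ r ∈ P := by
    intro r
    rw [← hQ]
    rfl
  refine ⟨Q, hQprime, ?_, ?_⟩
  · intro h
    apply hlamP
    rw [← hmem]
    have : ρbar (algebraMap O R1 lam) = algebraMap O T0 lam := by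
      apply hj
      rw [hρbar, AlgHom.commutes, AlgHom.commutes,
        IsScalarTower.algebraMap_apply O S (Matrix (Fin d) (Fin d) S), rtk4_map_algebraMap_mk,
        IsScalarTower.algebraMap_apply O (S ⧸ 𝔞) (Matrix (Fin d) (Fin d) (S ⧸ 𝔞))]
      rfl
    rw [this]
    exact h
  · intro x hx
    have : θ x = ρbar (ι x) := hj (by rw [hθ, hρbar])
    rw [this, hmem]
    exact hIur x hx

/-- **The output of the machine in the base Hecke ring** (`Rχ` integral over `S'`,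
`dim S' ≤ dim S`). -/
theorem rtk4_out_T0 [IsDomain S] (hS : ringKrullDim S ≠ ⊤)
    [IsNoetherianRing R1] [IsNoetherianRing Rχ] [IsDomain Rχ]
    {S' : Type*} [CommRing S'] (φ : S' →+* Rχ) (hφ : φ.IsIntegral)
    (hdim : ringKrullDim S' ≤ ringKrullDim S)
    (lam : O) (hlam0 : algebraMap O S lam ≠ 0)
    (𝔞 : Ideal S) [𝔞.IsPrime] (hlam𝔞 : algebraMap O S lam ∉ 𝔞)
    (f1 : R1 →+* Rb) (fχ : Rχ →+* Rb) (hf1 : Surjective f1) (hfχ : Surjective fχ)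
    (hk1 : RingHom.ker f1 ≤ Ideal.span {algebraMap O R1 lam})
    (hkχ : fχ (algebraMap O Rχ lam) = 0)
    {d : ℕ} (hd : 0 < d)
    (ρ1 : R1 →ₐ[O] Matrix (Fin d) (Fin d) S) (ρχ : Rχ →ₐ[O] Matrix (Fin d) (Fin d) S)
    (hcong : ∀ r1 rχ, f1 r1 = fχ rχ →
      (ρ1 r1).map (Ideal.Quotient.mk (Ideal.span {algebraMap O S lam})) =
        (ρχ rχ).map (Ideal.Quotient.mk (Ideal.span {algebraMap O S lam})))
    (hscal1 : ∀ s : S, ∃ r, ρ1 r = algebraMap S (Matrix (Fin d) (Fin d) S) s)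
    (hscalχ : ∀ s : S, ∃ r, ρχ r = algebraMap S (Matrix (Fin d) (Fin d) S) s)
    (ι : R0 →+* R1) (Iur : Ideal R0)
    (𝔮 : Ideal R1) [𝔮.IsPrime] (h𝔮 : algebraMap O R1 lam ∈ 𝔮)
    (hCr : ∀ x ∈ Iur, ∃ (e : ℕ) (D : R1), D ∉ 𝔮 ∧ algebraMap O R1 lam ^ e * D * ι x = 0)
    {T0 : Type*} [CommRing T0] [Algebra O T0]
    (j : T0 →ₐ[O] Matrix (Fin d) (Fin d) (S ⧸ 𝔞)) (hj : Injective j)
    (hbase : ∀ r1 : R1, ∃ t : T0, j t = (ρ1 r1).map (Ideal.Quotient.mk 𝔞))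
    (θ : R0 → T0) (hθ : ∀ r0 : R0, j (θ r0) = (ρ1 (ι r0)).map (Ideal.Quotient.mk 𝔞)) :
    ∃ 𝔓 : Ideal T0, 𝔓.IsPrime ∧ algebraMap O T0 lam ∉ 𝔓 ∧ ∀ x ∈ Iur, θ x ∈ 𝔓 := by
  letI : Algebra S' Rχ := φ.toAlgebra
  haveI : Algebra.IsIntegral S' Rχ := ⟨hφ⟩
  exact rtk4_out_T0_of_dim hS ((rtk4_dim_le_of_isIntegral (S' := S')).trans hdim) lam hlam0
    𝔞 hlam𝔞 f1 fχ hf1 hfχ hk1 hkχ hd ρ1 ρχ hcong hscal1 hscalχ ι Iur 𝔮 h𝔮 hCr j hj hbase θ hθ

end Out

end Fermat.Agent.RT.K4
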