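import Mathlib

/-!
# K-machine, piece K4: auxiliary lemmas for the output statement

* `rtk4_map_surjective`, `rtk4_ker_map_le` : `MvPowerSeries.map f` is surjective with kernel
  generated by `C lam` when `f` is surjective with kernel generated by `lam`.
* `rtk4_mem_of_smul_le_ideal` : a prime containing `Ann(M)` and `I` contains `Ann(M / I M)`.
* `rtk4_descend_prime` : a prime of `R` containing the kernel of the action on the base descends
  to a prime of the base Hecke ring.
-/

set_option autoImplicit false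
set_option linter.style.haveILetI false

namespace Fermat.Agent.RT.K4

open Function

theorem rtk4_map_surjective {A B σ : Type*} [CommRing A] [CommRing B] (f : A →+* B)
    (hf : Surjective f) : Surjective (MvPowerSeries.map (σ := σ) f) := by
  intro ψ
  choose a ha using hf
  let φ' : MvPowerSeries σ A := fun ν => a (MvPowerSeries.coeff ν ψ)
  have hc : ∀ ν, MvPowerSeries.coeff ν φ' = a (MvPowerSeries.coeff ν ψ) := fun ν => rfl
  refine ⟨φ', ?_⟩
  ext ν
  rw [MvPowerSeries.coeff_map, hc]
  exact ha _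

theorem rtk4_ker_map_le {A B σ : Type*} [CommRing A] [CommRing B] (f : A →+* B) (lam : A)
    (hk : RingHom.ker f ≤ Ideal.span {lam}) :
    RingHom.ker (MvPowerSeries.map (σ := σ) f) ≤
      Ideal.span {MvPowerSeries.C (σ := σ) (R := A) lam} := by
  intro φ hφ
  rw [RingHom.mem_ker] at hφ
  have h1 : ∀ ν, ∃ a : A, MvPowerSeries.coeff ν φ = lam * a := by
    intro ν
    have h2 : f (MvPowerSeries.coeff ν φ) = 0 := by
      have := congrArg (MvPowerSeries.coeff ν) hφ
      rwa [MvPowerSeries.coeff_map, map_zero] at this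
    have h3 := hk (RingHom.mem_ker.mpr h2)
    rw [Ideal.mem_span_singleton] at h3
    exact h3
  choose a ha using h1
  rw [Ideal.mem_span_singleton]
  let φ' : MvPowerSeries σ A := fun ν => a ν
  have hc : ∀ ν, MvPowerSeries.coeff ν φ' = a ν := fun ν => rfl
  refine ⟨φ', ?_⟩
  ext ν
  rw [MvPowerSeries.coeff_C_mul, hc]
  exact ha ν

/-- A prime containing `Ann(M)` and `I` contains every `r` with `r M ⊆ I M` (`M` finite). -/
theorem rtk4_mem_of_smul_le_ideal {R M : Type*} [CommRing R] [AddCommGroup M] [Module R M]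
    [Module.Finite R M] (I : Ideal R) (𝔮 : Ideal R) [𝔮.IsPrime] (hI : I ≤ 𝔮)
    (hAnn : Module.annihilator R M ≤ 𝔮) (r : R)
    (hr : ∀ m : M, r • m ∈ (I • ⊤ : Submodule R M)) : r ∈ 𝔮 := by
  have hsupp : (⟨𝔮, inferInstance⟩ : PrimeSpectrum R) ∈
      Module.support R (M ⧸ (I • ⊤ : Submodule R M)) := by
    rw [Module.support_quotient]
    refine ⟨Module.mem_support_iff_of_finite.mpr hAnn, ?_⟩
    rw [PrimeSpectrum.mem_zeroLocus]
    exact hI
  have h2 := Module.mem_support_iff_of_finite.mp hsupp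
  apply h2
  rw [Module.mem_annihilator]
  intro x
  obtain ⟨m, rfl⟩ := Submodule.Quotient.mk_surjective _ x
  rw [← Submodule.Quotient.mk_smul, Submodule.Quotient.mk_eq_zero]
  exact hr m

/-- A prime `P'` of `R` containing the kernel of the action of `R` on the base `M0 = π(M)`
descends to a prime of the base Hecke ring `T0`. -/
theorem rtk4_descend_prime {𝒪 R M M0 : Type*} [CommRing 𝒪] [CommRing R] [AddCommGroup M]
    [Module R M] [AddCommGroup M0] [Module 𝒪 M0] (T0 : Subalgebra 𝒪 (Module.End 𝒪 M0))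
    (π : M →+ M0)
    (base_surjective : ∀ t : T0, ∃ r : R, ∀ x : M, π (r • x) = (t : Module.End 𝒪 M0) (π x))
    (P' : Ideal R) [hP' : P'.IsPrime] (hK : ∀ r : R, (∀ x : M, π (r • x) = 0) → r ∈ P') :
    ∃ 𝔓 : Ideal T0, 𝔓.IsPrime ∧ ∀ (r : R) (t : T0),
      (∀ x : M, π (r • x) = (t : Module.End 𝒪 M0) (π x)) → (t ∈ 𝔓 ↔ r ∈ P') := by
  -- two representatives of the same `t` differ by an element of the kernel
  have hrep : ∀ (r r' : R) (t : T0), (∀ x : M, π (r • x) = (t : Module.End 𝒪 M0) (π x)) →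
      (∀ x : M, π (r' • x) = (t : Module.End 𝒪 M0) (π x)) → r' ∈ P' → r ∈ P' := by
    intro r r' t hr hr' hmem
    have h1 : r - r' ∈ P' := hK _ (fun x => by rw [sub_smul, map_sub, hr, hr', sub_self])
    have := P'.add_mem h1 hmem
    rwa [sub_add_cancel] at this
  let 𝔓 : Ideal T0 :=
    { carrier := {t | ∃ r ∈ P', ∀ x : M, π (r • x) = (t : Module.End 𝒪 M0) (π x)}
      zero_mem' := ⟨0, P'.zero_mem, fun x => by simp⟩
      add_mem' := by
        rintro t t' ⟨r, hr, h⟩ ⟨r', hr', h'⟩
        refine ⟨r + r', P'.add_mem hr hr', fun x => ?_⟩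
        rw [add_smul, map_add, h, h']
        rfl
      smul_mem' := by
        rintro c t ⟨r, hr, h⟩
        obtain ⟨rc, hrc⟩ := base_surjective c
        refine ⟨rc * r, P'.mul_mem_left _ hr, fun x => ?_⟩
        rw [mul_smul, hrc, h]
        rfl }
  have hmem : ∀ (r : R) (t : T0),
      (∀ x : M, π (r • x) = (t : Module.End 𝒪 M0) (π x)) → (t ∈ 𝔓 ↔ r ∈ P') := by
    intro r t hr
    constructor
    · rintro ⟨r', hr', h'⟩
      exact hrep r r' t hr h' hr'
    · intro h
      exact ⟨r, h, hr⟩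
  refine ⟨𝔓, ⟨?_, ?_⟩, hmem⟩
  · intro htop
    have h1 : (1 : T0) ∈ 𝔓 := htop ▸ Submodule.mem_top
    have h2 := (hmem 1 1 (fun x => by simp)).mp h1
    exact hP'.ne_top ((Ideal.eq_top_iff_one _).mpr h2)
  · intro t t' htt'
    obtain ⟨r, hr⟩ := base_surjective t
    obtain ⟨r', hr'⟩ := base_surjective t'
    have h1 : ∀ x : M, π ((r * r') • x) = ((t * t' : T0) : Module.End 𝒪 M0) (π x) := by
      intro x
      rw [mul_smul, hr, hr']
      rfl
    have h2 := (hmem _ _ h1).mp htt'
    rcases hP'.mem_or_mem h2 with h | h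
    · exact Or.inl ((hmem _ _ hr).mpr h)
    · exact Or.inr ((hmem _ _ hr').mpr h)

end Fermat.Agent.RT.K4
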