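import Fermat.Agent.RT.K4.Weak

/-!
# K-machine, piece K4: the output of the machine in MATRIX form

The patched modules are `S^d` with the rings `R1`, `Rχ` acting through algebra homomorphisms
`ρ1 : R1 →ₐ[O] M_d(S)`, `ρχ : Rχ →ₐ[O] M_d(S)` (the shape produced by the patching theorem
`Fermat.Agent.RT.P.rtp_patch`).

* `rtk4MatModule`    : the module structure on `Fin d → S` given by `ρ`.
* `rtk4_out_matrix`  : **the output of the machine**: a prime `𝔓` of `R1` containing the kernel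
  of `ρ1 mod 𝔞` and the unramified ideal `ι(Iur)`, with `λ ∉ 𝔓`.
-/

set_option autoImplicit false
set_option linter.style.haveILetI false

namespace Fermat.Agent.RT.K4

open Function

/-- The module structure on `S^d` defined by a ring homomorphism `ρ : R → M_d(S)`. -/
@[reducible] def rtk4MatModule {R S : Type*} [CommRing R] [CommRing S] {d : ℕ}
    (ρ : R →+* Matrix (Fin d) (Fin d) S) : Module R (Fin d → S) where
  smul r v := (ρ r).mulVec v
  one_smul v := by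
    show (ρ 1).mulVec v = v
    rw [map_one, Matrix.one_mulVec]
  mul_smul r r' v := by
    show (ρ (r * r')).mulVec v = (ρ r).mulVec ((ρ r').mulVec v)
    rw [map_mul, Matrix.mulVec_mulVec]
  smul_zero r := Matrix.mulVec_zero _
  smul_add r v w := Matrix.mulVec_add _ _ _
  add_smul r r' v := by
    show (ρ (r + r')).mulVec v = (ρ r).mulVec v + (ρ r').mulVec v
    rw [map_add, Matrix.add_mulVec]
  zero_smul v := by
    show (ρ 0).mulVec v = 0
    rw [map_zero, Matrix.zero_mulVec]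

section Aux

variable {S : Type*} [CommRing S] {d : ℕ}

theorem rtk4_algebraMap_mulVec (s : S) (v : Fin d → S) :
    (algebraMap S (Matrix (Fin d) (Fin d) S) s).mulVec v = s • v := by
  rw [Algebra.algebraMap_eq_smul_one, Matrix.smul_mulVec, Matrix.one_mulVec]

/-- a matrix killing all vectors is zero -/
theorem rtk4_eq_zero_of_mulVec (A : Matrix (Fin d) (Fin d) S)
    (h : ∀ v : Fin d → S, A.mulVec v = 0) : A = 0 := by
  ext i j
  have := congrFun (h (Pi.single j 1)) i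
  rwa [Matrix.mulVec_single_one] at this

/-- a matrix which is zero modulo `(c)` is a multiple of `c` -/
theorem rtk4_exists_smul_of_map_eq_zero (c : S) (A : Matrix (Fin d) (Fin d) S)
    (h : A.map (Ideal.Quotient.mk (Ideal.span {c})) = 0) :
    ∃ N : Matrix (Fin d) (Fin d) S, A = c • N := by
  have h1 : ∀ i j, ∃ n : S, A i j = c * n := by
    intro i j
    have := congrFun (congrFun h i) j
    rw [Matrix.map_apply, Matrix.zero_apply, Ideal.Quotient.eq_zero_iff_mem,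
      Ideal.mem_span_singleton] at this
    exact this
  choose N hN using h1
  refine ⟨Matrix.of N, ?_⟩
  ext i j
  rw [Matrix.smul_apply, Matrix.of_apply, smul_eq_mul]
  exact hN i j

/-- a vector with all coordinates in `𝔞` lies in `𝔞 · S^d` -/
theorem rtk4_mem_smul_top_of_forall_mem (𝔞 : Ideal S) (w : Fin d → S) (h : ∀ i, w i ∈ 𝔞) :
    w ∈ (𝔞 • ⊤ : Submodule S (Fin d → S)) := by
  have hw : w = ∑ i, w i • (Pi.single i (1 : S) : Fin d → S) := by
    ext j
    rw [Finset.sum_apply]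
    simp [Pi.single_apply]
  rw [hw]
  exact Submodule.sum_mem _ fun i _ => Submodule.smul_mem_smul (h i) Submodule.mem_top

end Aux

section Out

variable {O : Type*} [CommRing O] {S : Type*} [CommRing S] [Algebra O S]
  {R0 R1 Rχ Rb : Type*} [CommRing R0] [CommRing R1] [Algebra O R1]
  [CommRing Rχ] [Algebra O Rχ] [CommRing Rb]

/-- **The output of the machine, matrix form.**

`ρ1`, `ρχ` are the patched actions on `S^d` (`d ≥ 1`); they agree modulo `λ` on elements with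
the same image in the common reduction `Rb` (`hcong`), and `S` acts through both (`hscal1`,
`hscalχ`).  `Rχ` is a Noetherian domain with `dim Rχ ≤ dim S < ∞`.  `𝔮` is a prime of `R1` containing `λ`, and every element of `ι(Iur)` is killed by
`λ^e · D` for some `D ∉ 𝔮` (Cramer).  `𝔞` is a prime of `S` not containing `λ`.

Then there is a prime `𝔓` of `R1` which contains the kernel of `ρ1 mod 𝔞` and `ι(Iur)`, but
not `λ`. -/
theorem rtk4_out_matrix_of_dim [IsDomain S] (hS : ringKrullDim S ≠ ⊤)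
    [IsNoetherianRing R1] [IsNoetherianRing Rχ] [IsDomain Rχ]
    (hRS : ringKrullDim Rχ ≤ ringKrullDim S)
    (lam : O) (hlam0 : algebraMap O S lam ≠ 0)
    (𝔞 : Ideal S) [𝔞.IsPrime] (hlam𝔞 : algebraMap O S lam ∉ 𝔞)
    (f1 : R1 →+* Rb) (fχ : Rχ →+* Rb) (hf1 : Surjective f1) (hfχ : Surjective fχ)
    (hk1 : RingHom.ker f1 ≤ Ideal.span {algebraMap O R1 lam})
    (hkχ : fχ (algebraMap O Rχ lam) = 0)
    {d : ℕ} (hd : 0 < d)
    (ρ1 : R1 →ₐ[O] Matrix (Fin d) (Fin d) S) (ρχ : Rχ →ₐ[O] Matrix (Fin d) (Fin d) S)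
    (hcong : ∀ r1 rχ, f1 r1 = fχ rχ →
      (ρ1 r1).map (Ideal.Quotient.mk (Ideal.span {algebraMap O S lam})) =
        (ρχ rχ).map (Ideal.Quotient.mk (Ideal.span {algebraMap O S lam})))
    (hscal1 : ∀ s : S, ∃ r, ρ1 r = algebraMap S (Matrix (Fin d) (Fin d) S) s)
    (hscalχ : ∀ s : S, ∃ r, ρχ r = algebraMap S (Matrix (Fin d) (Fin d) S) s)
    (ι : R0 →+* R1) (Iur : Ideal R0)
    (𝔮 : Ideal R1) [𝔮.IsPrime] (h𝔮 : algebraMap O R1 lam ∈ 𝔮)
    (hCr : ∀ x ∈ Iur, ∃ (e : ℕ) (D : R1), D ∉ 𝔮 ∧ algebraMap O R1 lam ^ e * D * ι x = 0) :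
    ∃ 𝔓 : Ideal R1, 𝔓.IsPrime ∧
      (∀ r : R1, (ρ1 r).map (Ideal.Quotient.mk 𝔞) = 0 → r ∈ 𝔓) ∧
      algebraMap O R1 lam ∉ 𝔓 ∧ ∀ x ∈ Iur, ι x ∈ 𝔓 := by
  letI m1 : Module R1 (Fin d → S) := rtk4MatModule (ρ1 : R1 →+* Matrix (Fin d) (Fin d) S)
  letI mχ : Module Rχ (Fin d → S) := rtk4MatModule (ρχ : Rχ →+* Matrix (Fin d) (Fin d) S)
  have hsmul1 : ∀ (r : R1) (v : Fin d → S), r • v = (ρ1 r).mulVec v := fun _ _ => rfl
  have hsmulχ : ∀ (r : Rχ) (v : Fin d → S), r • v = (ρχ r).mulVec v := fun _ _ => rfl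
  haveI : Nonempty (Fin d) := ⟨⟨0, hd⟩⟩
  -- `S` acts through `R1` and `Rχ`
  have hc1 : ∀ s : S, ∃ r : R1, ∀ m : Fin d → S, r • m = s • m := by
    intro s
    obtain ⟨r, hr⟩ := hscal1 s
    exact ⟨r, fun m => by rw [hsmul1, hr, rtk4_algebraMap_mulVec]⟩
  have hcχ : ∀ s : S, ∃ r : Rχ, ∀ m : Fin d → S, r • m = s • m := by
    intro s
    obtain ⟨r, hr⟩ := hscalχ s
    exact ⟨r, fun m => by rw [hsmulχ, hr, rtk4_algebraMap_mulVec]⟩
  -- the constants of `O` act as constants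
  have hO1 : ∀ (c : O) (m : Fin d → S), algebraMap O R1 c • m = algebraMap O S c • m := by
    intro c m
    rw [hsmul1, AlgHom.commutes, IsScalarTower.algebraMap_apply O S (Matrix (Fin d) (Fin d) S),
      rtk4_algebraMap_mulVec]
  have hOχ : ∀ (c : O) (m : Fin d → S), algebraMap O Rχ c • m = algebraMap O S c • m := by
    intro c m
    rw [hsmulχ, AlgHom.commutes, IsScalarTower.algebraMap_apply O S (Matrix (Fin d) (Fin d) S),
      rtk4_algebraMap_mulVec]
  -- torsion-freeness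
  have htf : ∀ (s : S) (m : Fin d → S), s • m = 0 → s = 0 ∨ m = 0 := by
    intro s m h
    by_cases hs : s = 0
    · exact Or.inl hs
    · right
      ext i
      have := congrFun h i
      rw [Pi.smul_apply, smul_eq_mul, Pi.zero_apply] at this
      exact (mul_eq_zero.mp this).resolve_left hs
  -- the relation between the two reductions
  have hrel : ∀ (a : R1) (r : Rχ), f1 a = fχ r → (∀ m : Fin d → S, a • m = 0) →
      ∀ m : Fin d → S, ∃ m' : Fin d → S, r • m = algebraMap O Rχ lam • m' := by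
    intro a r har ha m
    have h0 : ρ1 a = 0 := rtk4_eq_zero_of_mulVec _ fun v => by rw [← hsmul1]; exact ha v
    have h1 := hcong a r har
    rw [h0] at h1
    have h2 : (ρχ r).map (Ideal.Quotient.mk (Ideal.span {algebraMap O S lam})) = 0 := by
      rw [← h1]
      ext i j
      simp
    obtain ⟨N, hN⟩ := rtk4_exists_smul_of_map_eq_zero _ _ h2
    refine ⟨N.mulVec m, ?_⟩
    rw [hOχ, hsmulχ, hN, Matrix.smul_mulVec]
  obtain ⟨P', hprime, -, hG, hiff, hker⟩ :=
    rtk4_out_weak_of_dim (S := S) (R₁ := R1) (Rχ := Rχ) (Rb := Rb)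
      (M₁ := Fin d → S) (Mχ := Fin d → S) hc1 hcχ htf htf hS hRS f1 fχ hf1 hfχ
      (algebraMap O R1 lam) (algebraMap O Rχ lam) hk1 hkχ hrel 𝔮 h𝔮 𝔞 (ι '' (Iur : Set R0))
      (by
        rintro _ ⟨x, hx, rfl⟩
        obtain ⟨e, D, hD, h0⟩ := hCr x hx
        refine ⟨algebraMap O S lam ^ e, algebraMap O R1 lam ^ e, D, pow_ne_zero e hlam0,
          fun m => ?_, hD, ?_⟩
        · rw [← map_pow, ← map_pow, hO1]
        · rw [mul_comm D, h0])
  refine ⟨P', hprime, ?_, ?_, ?_⟩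
  · intro r hr
    apply hker
    intro m
    rw [hsmul1]
    apply rtk4_mem_smul_top_of_forall_mem
    intro i
    rw [Matrix.mulVec, dotProduct]
    refine Ideal.sum_mem _ fun j _ => Ideal.mul_mem_right _ _ ?_
    have := congrFun (congrFun hr i) j
    rwa [Matrix.map_apply, Matrix.zero_apply, Ideal.Quotient.eq_zero_iff_mem] at this
  · intro h
    exact hlam𝔞 ((hiff _ _ (hO1 lam)).mp h)
  · intro x hx
    exact hG (Ideal.subset_span ⟨x, hx, rfl⟩)

/-- **The output of the machine, matrix form** (`Rχ` integral over a ring `S'` with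
`dim S' ≤ dim S < ∞`; in the application `S` and `S'` are power series rings over `O` in the
same number of variables). -/
theorem rtk4_out_matrix [IsDomain S] (hS : ringKrullDim S ≠ ⊤)
    [IsNoetherianRing R1] [IsNoetherianRing Rχ] [IsDomain Rχ]
    {S' : Type*} [CommRing S'] (φ : S' →+* Rχ) (hφ : φ.IsIntegral)
    (hdim : ringKrullDim S' ≤ ringKrullDim S)
    (lam : O) (hlam0 : algebraMap O S lam ≠ 0)
    (𝔞 : Ideal S) [𝔞.IsPrime] (hlam𝔞 : algebraMap O S lam ∉ 𝔞)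
    (f1 : R1 →+* Rb) (fχ : Rχ →+* Rb) (hf1 : Surjective f1) (hfχ : Surjective fχ)
    (hk1 : RingHom.ker f1 ≤ Ideal.span {algebraMap O R1 lam})
    (hkχ : fχ (algebraMap O Rχ lam) = 0)
    {d : ℕ} (hd : 0 < d)
    (ρ1 : R1 →ₐ[O] Matrix (Fin d) (Fin d) S) (ρχ : Rχ →ₐ[O] Matrix (Fin d) (Fin d) S)
    (hcong : ∀ r1 rχ, f1 r1 = fχ rχ →
      (ρ1 r1).map (Ideal.Quotient.mk (Ideal.span {algebraMap O S lam})) =
        (ρχ rχ).map (Ideal.Quotient.mk (Ideal.span {algebraMap O S lam})))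
    (hscal1 : ∀ s : S, ∃ r, ρ1 r = algebraMap S (Matrix (Fin d) (Fin d) S) s)
    (hscalχ : ∀ s : S, ∃ r, ρχ r = algebraMap S (Matrix (Fin d) (Fin d) S) s)
    (ι : R0 →+* R1) (Iur : Ideal R0)
    (𝔮 : Ideal R1) [𝔮.IsPrime] (h𝔮 : algebraMap O R1 lam ∈ 𝔮)
    (hCr : ∀ x ∈ Iur, ∃ (e : ℕ) (D : R1), D ∉ 𝔮 ∧ algebraMap O R1 lam ^ e * D * ι x = 0) :
    ∃ 𝔓 : Ideal R1, 𝔓.IsPrime ∧
      (∀ r : R1, (ρ1 r).map (Ideal.Quotient.mk 𝔞) = 0 → r ∈ 𝔓) ∧
      algebraMap O R1 lam ∉ 𝔓 ∧ ∀ x ∈ Iur, ι x ∈ 𝔓 := by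
  letI : Algebra S' Rχ := φ.toAlgebra
  haveI : Algebra.IsIntegral S' Rχ := ⟨hφ⟩
  exact rtk4_out_matrix_of_dim hS ((rtk4_dim_le_of_isIntegral (S' := S')).trans hdim) lam hlam0
    𝔞 hlam𝔞 f1 fχ hf1 hfχ hk1 hkχ hd ρ1 ρχ hcong hscal1 hscalχ ι Iur 𝔮 h𝔮 hCr

end Out

end Fermat.Agent.RT.K4
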