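import Fermat.Agent.RT.K4.Dim
import Fermat.Agent.RT.K4.PowerSeriesDim

/-!
# K-machine, piece K4: the output point (K4-pt) and the faithfulness criterion (K4-dim)

* `rtk4_dim_le_of_isIntegral` : `R` integral over `S'` ⇒ `dim R ≤ dim S'` (incomparability).
* `rtk4_faithful_of_finite`   : **K4-dim.**  `R` a Noetherian domain, integral over a ring `S'`
  with `dim S' ≤ dim S < ∞`; `M` finite over `R`, finite and torsion-free over `S`, `M ≠ 0`.
  Then `Ann_R(M) = 0`.
* `rtk4_free_facts`, `rtk4_faithful_through`, `rtk4_point_through` : the same for a module which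
  is free over `S` through an explicit ring homomorphism `σ : S →+* R` (no instances needed).
* `rtk4_point` : **K4-pt.**  Steps (3)–(5) of the machine: from `Ann_R(M) ≤ 𝔮` and Cramer
  elements, a prime `P'` of `R` containing `Ann_R(M)` and the ideals `N_r`, lying over the given
  prime `𝔞` of `S`.
-/

set_option autoImplicit false
set_option linter.style.haveILetI false

namespace Fermat.Agent.RT.K4

open Function

/-- Incomparability: an integral algebra does not raise the Krull dimension. -/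
theorem rtk4_dim_le_of_isIntegral {S' R : Type*} [CommRing S'] [CommRing R] [Algebra S' R]
    [Algebra.IsIntegral S' R] : ringKrullDim R ≤ ringKrullDim S' := by
  refine Order.krullDim_le_of_strictMono
    (fun P : PrimeSpectrum R => PrimeSpectrum.comap (algebraMap S' R) P) ?_
  intro P Q hPQ
  have h : P.asIdeal < Q.asIdeal := hPQ
  exact Ideal.IsIntegral.comap_lt_comap (R := S') h

section Module

variable {S R M : Type*} [CommRing S] [CommRing R] [Algebra S R]
  [AddCommGroup M] [Module R M] [Module S M] [IsScalarTower S R M]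

/-- **K4-dim.** -/
theorem rtk4_faithful_of_finite {S' : Type*} [CommRing S'] [Algebra S' R]
    [Algebra.IsIntegral S' R] [Nontrivial S] [IsDomain R] [IsNoetherianRing R]
    [Module.Finite R M] [Module.Finite S M] [Nontrivial M]
    (htf : ∀ (s : S) (m : M), s • m = 0 → s = 0 ∨ m = 0)
    (hS : ringKrullDim S ≠ ⊤) (hdim : ringKrullDim S' ≤ ringKrullDim S) :
    Module.annihilator R M = ⊥ :=
  rtk4_faithful_of_domain htf hS ((rtk4_dim_le_of_isIntegral (S' := S')).trans hdim)

/-- **K4-pt.**  The output point of the machine. -/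
theorem rtk4_point [IsNoetherianRing R] [Module.Finite R M] [Module.Finite S M]
    (htf : ∀ (s : S) (m : M), s • m = 0 → s = 0 ∨ m = 0)
    (𝔮 : Ideal R) [𝔮.IsPrime] (hAnn : Module.annihilator R M ≤ 𝔮)
    (𝔞 : Ideal S) [𝔞.IsPrime] (G : Set R)
    (hCramer : ∀ x ∈ G, ∃ (s : S) (D : R), s ≠ 0 ∧ D ∉ 𝔮 ∧ D * algebraMap S R s * x = 0) :
    ∃ P' : Ideal R, P'.IsPrime ∧ Module.annihilator R M ≤ P' ∧ Ideal.span G ≤ P' ∧
      P'.comap (algebraMap S R) = 𝔞 := by
  obtain ⟨P, hP, hP𝔮⟩ := Ideal.exists_minimalPrimes_le hAnn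
  have hPprime : P.IsPrime := hP.1.1
  have hcomap : P.comap (algebraMap S R) = ⊥ := rtk4_comap_eq_bot htf hP
  have hG : Ideal.span G ≤ P := by
    rw [Ideal.span_le]
    intro x hx
    obtain ⟨s, D, hs, hD, h0⟩ := hCramer x hx
    have h1 : D * algebraMap S R s * x ∈ P := by rw [h0]; exact P.zero_mem
    have hsP : algebraMap S R s ∉ P := by
      intro h
      have : s ∈ P.comap (algebraMap S R) := h
      rw [hcomap] at this
      exact hs this
    have hDP : D ∉ P := fun h => hD (hP𝔮 h)
    rcases hPprime.mem_or_mem h1 with h | h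
    · rcases hPprime.mem_or_mem h with h | h
      · exact absurd h hDP
      · exact absurd h hsP
    · exact h
  have hint : Algebra.IsIntegral S (R ⧸ P) := rtk4_isIntegral_quotient (M := M) P hP.1.2
  obtain ⟨Q, -, hQprime, hQ⟩ := Ideal.exists_ideal_over_prime_of_isIntegral 𝔞 (⊥ : Ideal (R ⧸ P))
    (by
      intro s hs
      rw [Ideal.mem_comap, Ideal.mem_bot] at hs
      have : s ∈ P.comap (algebraMap S R) := by
        rw [Ideal.mem_comap]
        exact Ideal.Quotient.eq_zero_iff_mem.mp hs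
      rw [hcomap] at this
      rw [(Ideal.mem_bot.mp this)]
      exact 𝔞.zero_mem)
  refine ⟨Q.comap (Ideal.Quotient.mk P), Ideal.comap_isPrime _ _, ?_, ?_, ?_⟩
  · intro x hx
    rw [Ideal.mem_comap, Ideal.Quotient.eq_zero_iff_mem.mpr (hP.1.2 hx)]
    exact Q.zero_mem
  · intro x hx
    rw [Ideal.mem_comap, Ideal.Quotient.eq_zero_iff_mem.mpr (hG hx)]
    exact Q.zero_mem
  · rw [← hQ, Ideal.comap_comap]
    rfl

end Module

section Through

/-- A module with a finite `S`-basis (`S` without zero divisors) is finite over `S` and over `R`,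
and torsion-free over `S`. -/
theorem rtk4_free_facts {S R M : Type*} [CommRing S] [CommRing R] [Algebra S R]
    [AddCommGroup M] [Module R M] [Module S M] [IsScalarTower S R M] [NoZeroDivisors S]
    {d : ℕ} (b : Fin d → M)
    (b_span : ∀ x : M, ∃ c : Fin d → S, x = ∑ i, c i • b i)
    (b_rel : ∀ c : Fin d → S, ∑ i, c i • b i = 0 → ∀ i, c i = 0) :
    Module.Finite S M ∧ Module.Finite R M ∧
      ∀ (s : S) (m : M), s • m = 0 → s = 0 ∨ m = 0 := by
  have hfin : Module.Finite S M := by
    refine Module.Finite.of_surjective (Fintype.linearCombination S b) ?_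
    intro x
    obtain ⟨c, hc⟩ := b_span x
    exact ⟨c, by rw [hc, Fintype.linearCombination_apply]⟩
  refine ⟨hfin, Module.Finite.of_restrictScalars_finite S R M, ?_⟩
  intro s m hsm
  by_cases hs : s = 0
  · exact Or.inl hs
  · right
    obtain ⟨c, rfl⟩ := b_span m
    rw [Finset.smul_sum] at hsm
    have h1 : ∑ i, (s * c i) • b i = 0 := by
      rw [← hsm]
      exact Finset.sum_congr rfl fun i _ => mul_smul _ _ _
    have h2 := b_rel _ h1
    have h3 : ∀ i, c i = 0 := fun i => (mul_eq_zero.mp (h2 i)).resolve_left hs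
    exact Finset.sum_eq_zero fun i _ => by rw [h3 i, zero_smul]

variable {S R M : Type*} [CommRing S] [CommRing R] [AddCommGroup M] [Module R M]

/-- **K4-dim, explicit form.**  `M` is free of rank `d ≥ 1` over `S` through `σ : S →+* R`,
`R` is a Noetherian domain, integral over `S'` through `φ`, and `dim S' ≤ dim S < ∞`.
Then `M` is a faithful `R`-module. -/
theorem rtk4_faithful_through {S' : Type*} [CommRing S'] (σ : S →+* R) (φ : S' →+* R)
    (hφ : φ.IsIntegral) [Nontrivial S] [NoZeroDivisors S] [IsDomain R] [IsNoetherianRing R]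
    {d : ℕ} (hd : 0 < d) (b : Fin d → M)
    (b_span : ∀ x : M, ∃ c : Fin d → S, x = ∑ i, σ (c i) • b i)
    (b_rel : ∀ c : Fin d → S, ∑ i, σ (c i) • b i = 0 → ∀ i, c i = 0)
    (hS : ringKrullDim S ≠ ⊤) (hdim : ringKrullDim S' ≤ ringKrullDim S) :
    Module.annihilator R M = ⊥ := by
  letI : Algebra S R := σ.toAlgebra
  letI : Module S M := Module.compHom M σ
  haveI : IsScalarTower S R M := ⟨fun s r m => mul_smul (σ s) r m⟩
  letI : Algebra S' R := φ.toAlgebra
  haveI : Algebra.IsIntegral S' R := ⟨hφ⟩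
  obtain ⟨h1, h2, htf⟩ := rtk4_free_facts (S := S) (R := R) b b_span b_rel
  haveI : Nontrivial M := by
    refine ⟨⟨b ⟨0, hd⟩, 0, fun h0 => ?_⟩⟩
    have := b_rel (fun i => if i = ⟨0, hd⟩ then 1 else 0) (by
      rw [Finset.sum_eq_single (⟨0, hd⟩ : Fin d)]
      · simp [h0]
      · intro i _ hi
        simp [hi]
      · intro hi
        exact absurd (Finset.mem_univ _) hi) ⟨0, hd⟩
    simp at this
  exact rtk4_faithful_of_finite (S := S) (S' := S') htf hS hdim

/-- **K4-pt, explicit form.** -/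
theorem rtk4_point_through (σ : S →+* R) [NoZeroDivisors S] [IsNoetherianRing R]
    {d : ℕ} (b : Fin d → M)
    (b_span : ∀ x : M, ∃ c : Fin d → S, x = ∑ i, σ (c i) • b i)
    (b_rel : ∀ c : Fin d → S, ∑ i, σ (c i) • b i = 0 → ∀ i, c i = 0)
    (𝔮 : Ideal R) [𝔮.IsPrime] (hAnn : Module.annihilator R M ≤ 𝔮)
    (𝔞 : Ideal S) [𝔞.IsPrime] (G : Set R)
    (hCramer : ∀ x ∈ G, ∃ (s : S) (D : R), s ≠ 0 ∧ D ∉ 𝔮 ∧ D * σ s * x = 0) :
    ∃ P' : Ideal R, P'.IsPrime ∧ Module.annihilator R M ≤ P' ∧ Ideal.span G ≤ P' ∧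
      P'.comap σ = 𝔞 := by
  letI : Algebra S R := σ.toAlgebra
  letI : Module S M := Module.compHom M σ
  haveI : IsScalarTower S R M := ⟨fun s r m => mul_smul (σ s) r m⟩
  obtain ⟨h1, h2, htf⟩ := rtk4_free_facts (S := S) (R := R) b b_span b_rel
  exact rtk4_point htf 𝔮 hAnn 𝔞 G hCramer

end Through

end Fermat.Agent.RT.K4
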