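import Fermat.Agent.RT.K4.Point
import Fermat.Agent.RT.K4.Support
import Fermat.Agent.RT.K4.Base

/-!
# K-machine, piece K4: the weak form ("`S` acts through `R`")

In the patched situation there is no ring homomorphism `S → R`, only the fact that every
`s : S` acts on `M` as some `r : R`:  `hc : ∀ s, ∃ r, ∀ m, r • m = s • m`.
Then `S` maps to `R ⧸ Ann_R(M)` (`rtk4_tau`) and everything is reduced to the strong form.

* `rtk4_tau`, `rtk4_tau_eq`        : the ring homomorphism `S →+* R ⧸ Ann_R(M)`.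
* `rtk4_dim_le_quotient_weak`      : `dim S ≤ dim R/P` for `P` minimal over `Ann_R(M)`.
* `rtk4_faithful_weak`             : **K4-dim**, weak form.
* `rtk4_point_weak`                : **K4-pt**, weak form.
* `rtk4_ann_le_of_rel`             : the support lemma with the reductions mod `λ` compared by a
                                     relation instead of a common quotient module.
-/

set_option autoImplicit false
set_option linter.style.haveILetI false

namespace Fermat.Agent.RT.K4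

open Function

section Weak

variable {S R M : Type*} [CommRing S] [CommRing R] [AddCommGroup M] [Module R M] [Module S M]

theorem rtk4_mk_eq_of_smul (r r' : R) (h : ∀ m : M, r • m = r' • m) :
    Ideal.Quotient.mk (Module.annihilator R M) r = Ideal.Quotient.mk (Module.annihilator R M) r' :=
  Ideal.Quotient.eq.mpr (Module.mem_annihilator.mpr fun m => by rw [sub_smul, h, sub_self])

/-- `S` acts through `R` ⇒ ring homomorphism `S → R ⧸ Ann_R(M)`. -/
noncomputable def rtk4_tau (hc : ∀ s : S, ∃ r : R, ∀ m : M, r • m = s • m) :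
    S →+* R ⧸ Module.annihilator R M where
  toFun s := Ideal.Quotient.mk _ (Classical.choose (hc s))
  map_one' := by
    rw [← map_one (Ideal.Quotient.mk (Module.annihilator R M))]
    exact rtk4_mk_eq_of_smul _ _ fun m => by rw [Classical.choose_spec (hc 1), one_smul, one_smul]
  map_mul' s s' := by
    rw [← map_mul (Ideal.Quotient.mk (Module.annihilator R M))]
    exact rtk4_mk_eq_of_smul _ _ fun m => by
      rw [Classical.choose_spec (hc (s * s')), mul_smul, mul_smul,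
        Classical.choose_spec (hc s'), Classical.choose_spec (hc s)]
  map_zero' := by
    rw [← map_zero (Ideal.Quotient.mk (Module.annihilator R M))]
    exact rtk4_mk_eq_of_smul _ _ fun m => by
      rw [Classical.choose_spec (hc 0), zero_smul, zero_smul]
  map_add' s s' := by
    rw [← map_add (Ideal.Quotient.mk (Module.annihilator R M))]
    exact rtk4_mk_eq_of_smul _ _ fun m => by
      rw [Classical.choose_spec (hc (s + s')), add_smul, add_smul,
        Classical.choose_spec (hc s'), Classical.choose_spec (hc s)]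

theorem rtk4_tau_eq (hc : ∀ s : S, ∃ r : R, ∀ m : M, r • m = s • m) (s : S) (r : R)
    (h : ∀ m : M, r • m = s • m) : rtk4_tau hc s = Ideal.Quotient.mk _ r :=
  rtk4_mk_eq_of_smul _ _ fun m => by rw [Classical.choose_spec (hc s), h]

theorem rtk4_tau_smul (hc : ∀ s : S, ∃ r : R, ∀ m : M, r • m = s • m) (s : S) (m : M) :
    letI : Module (R ⧸ Module.annihilator R M) M := Module.quotientAnnihilator
    rtk4_tau hc s • m = s • m :=
  Classical.choose_spec (hc s) m

/-- `M` is finite over `R` as soon as it is finite over `S`. -/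
theorem rtk4_finite_of_weak [Module.Finite S M]
    (hc : ∀ s : S, ∃ r : R, ∀ m : M, r • m = s • m) : Module.Finite R M := by
  obtain ⟨G, hG⟩ := (Module.finite_def (R := S) (M := M)).mp inferInstance
  refine ⟨⟨G, ?_⟩⟩
  rw [eq_top_iff]
  rintro x -
  have hx : x ∈ Submodule.span S (G : Set M) := hG ▸ Submodule.mem_top
  induction hx using Submodule.span_induction with
  | mem y hy => exact Submodule.subset_span hy
  | zero => exact Submodule.zero_mem _
  | add y z _ _ hy hz => exact Submodule.add_mem _ hy hz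
  | smul s y _ hy =>
    obtain ⟨r, hr⟩ := hc s
    rw [← hr]
    exact Submodule.smul_mem _ r hy

/-- **K4-pt, weak form.** -/
theorem rtk4_point_weak [IsNoetherianRing R] [Module.Finite S M]
    (hc : ∀ s : S, ∃ r : R, ∀ m : M, r • m = s • m)
    (htf : ∀ (s : S) (m : M), s • m = 0 → s = 0 ∨ m = 0)
    (𝔮 : Ideal R) [𝔮.IsPrime] (hAnn : Module.annihilator R M ≤ 𝔮)
    (𝔞 : Ideal S) [𝔞.IsPrime] (G : Set R)
    (hCramer : ∀ x ∈ G, ∃ (s : S) (r : R) (D : R), s ≠ 0 ∧ (∀ m : M, r • m = s • m) ∧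
      D ∉ 𝔮 ∧ D * r * x = 0) :
    ∃ P' : Ideal R, P'.IsPrime ∧ Module.annihilator R M ≤ P' ∧ Ideal.span G ≤ P' ∧
      ∀ (s : S) (r : R), (∀ m : M, r • m = s • m) → (r ∈ P' ↔ s ∈ 𝔞) := by
  letI : Module (R ⧸ Module.annihilator R M) M := Module.quotientAnnihilator
  letI : Algebra S (R ⧸ Module.annihilator R M) := (rtk4_tau hc).toAlgebra
  haveI : IsScalarTower S (R ⧸ Module.annihilator R M) M := ⟨fun s t m => by
    rw [Algebra.smul_def, mul_smul]
    exact rtk4_tau_smul hc s (t • m)⟩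
  haveI : Module.Finite (R ⧸ Module.annihilator R M) M :=
    Module.Finite.of_restrictScalars_finite S (R ⧸ Module.annihilator R M) M
  have hker : RingHom.ker (Ideal.Quotient.mk (Module.annihilator R M)) ≤ 𝔮 := by
    rw [Ideal.mk_ker]; exact hAnn
  haveI h𝔮T : (𝔮.map (Ideal.Quotient.mk (Module.annihilator R M))).IsPrime :=
    Ideal.map_isPrime_of_surjective Ideal.Quotient.mk_surjective hker
  have hmem𝔮 : ∀ r : R, Ideal.Quotient.mk (Module.annihilator R M) r ∈
      𝔮.map (Ideal.Quotient.mk (Module.annihilator R M)) → r ∈ 𝔮 := by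
    intro r hr
    have : r ∈ Ideal.comap (Ideal.Quotient.mk (Module.annihilator R M))
        (𝔮.map (Ideal.Quotient.mk (Module.annihilator R M))) := hr
    rwa [Ideal.comap_map_of_surjective' _ Ideal.Quotient.mk_surjective,
      sup_eq_left.mpr hker] at this
  have hAnnT : Module.annihilator (R ⧸ Module.annihilator R M) M ≤
      𝔮.map (Ideal.Quotient.mk (Module.annihilator R M)) := by
    intro t ht
    obtain ⟨r, rfl⟩ := Ideal.Quotient.mk_surjective t
    have h0 : r ∈ Module.annihilator R M :=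
      Module.mem_annihilator.mpr fun m => Module.mem_annihilator.mp ht m
    rw [Ideal.Quotient.eq_zero_iff_mem.mpr h0]
    exact Ideal.zero_mem _
  obtain ⟨P'T, hprime, -, hG', hcomap⟩ :=
    rtk4_point (S := S) (R := R ⧸ Module.annihilator R M) (M := M) htf
      (𝔮.map (Ideal.Quotient.mk (Module.annihilator R M))) hAnnT 𝔞
      (Ideal.Quotient.mk (Module.annihilator R M) '' G) (by
        rintro _ ⟨x, hx, rfl⟩
        obtain ⟨s, r, D, hs, hr, hD, h0⟩ := hCramer x hx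
        refine ⟨s, Ideal.Quotient.mk _ D, hs, fun h => hD (hmem𝔮 D h), ?_⟩
        have : algebraMap S (R ⧸ Module.annihilator R M) s = Ideal.Quotient.mk _ r :=
          rtk4_tau_eq hc s r hr
        rw [this, ← map_mul, ← map_mul, h0, map_zero])
  refine ⟨P'T.comap (Ideal.Quotient.mk (Module.annihilator R M)), Ideal.comap_isPrime _ _,
    ?_, ?_, ?_⟩
  · intro r hr
    rw [Ideal.mem_comap, Ideal.Quotient.eq_zero_iff_mem.mpr hr]
    exact Ideal.zero_mem _
  · rw [Ideal.span_le]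
    intro x hx
    exact hG' (Ideal.subset_span ⟨x, hx, rfl⟩)
  · intro s r hr
    rw [Ideal.mem_comap, ← rtk4_tau_eq hc s r hr, ← hcomap]
    rfl

/-- `dim S ≤ dim R/P` for `P` minimal over `Ann_R(M)`, weak form. -/
theorem rtk4_dim_le_quotient_weak [IsNoetherianRing R] [Module.Finite S M]
    (hc : ∀ s : S, ∃ r : R, ∀ m : M, r • m = s • m)
    (htf : ∀ (s : S) (m : M), s • m = 0 → s = 0 ∨ m = 0)
    {P : Ideal R} (hP : P ∈ (Module.annihilator R M).minimalPrimes) :
    ringKrullDim S ≤ ringKrullDim (R ⧸ P) := by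
  letI : Module (R ⧸ Module.annihilator R M) M := Module.quotientAnnihilator
  letI : Algebra S (R ⧸ Module.annihilator R M) := (rtk4_tau hc).toAlgebra
  haveI : IsScalarTower S (R ⧸ Module.annihilator R M) M := ⟨fun s t m => by
    rw [Algebra.smul_def, mul_smul]
    exact rtk4_tau_smul hc s (t • m)⟩
  haveI : Module.Finite (R ⧸ Module.annihilator R M) M :=
    Module.Finite.of_restrictScalars_finite S (R ⧸ Module.annihilator R M) M
  have hPprime : P.IsPrime := hP.1.1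
  have hker : RingHom.ker (Ideal.Quotient.mk (Module.annihilator R M)) ≤ P := by
    rw [Ideal.mk_ker]; exact hP.1.2
  have hcm : (P.map (Ideal.Quotient.mk (Module.annihilator R M))).comap
      (Ideal.Quotient.mk (Module.annihilator R M)) = P := by
    rw [Ideal.comap_map_of_surjective' _ Ideal.Quotient.mk_surjective, sup_eq_left.mpr hker]
  have hAnnT : Module.annihilator (R ⧸ Module.annihilator R M) M = ⊥ := by
    rw [eq_bot_iff]
    intro t ht
    obtain ⟨r, rfl⟩ := Ideal.Quotient.mk_surjective t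
    have h0 : r ∈ Module.annihilator R M :=
      Module.mem_annihilator.mpr fun m => Module.mem_annihilator.mp ht m
    rw [Ideal.Quotient.eq_zero_iff_mem.mpr h0]
    exact Ideal.zero_mem _
  have hPT : P.map (Ideal.Quotient.mk (Module.annihilator R M)) ∈
      (Module.annihilator (R ⧸ Module.annihilator R M) M).minimalPrimes := by
    refine ⟨⟨Ideal.map_isPrime_of_surjective Ideal.Quotient.mk_surjective hker, ?_⟩, ?_⟩
    · rw [hAnnT]; exact bot_le
    · rintro Q ⟨hQprime, -⟩ hQle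
      have h1 : Q.comap (Ideal.Quotient.mk (Module.annihilator R M)) ≤ P := by
        rw [← hcm]
        exact Ideal.comap_mono hQle
      have h2 : P ≤ Q.comap (Ideal.Quotient.mk (Module.annihilator R M)) := by
        refine hP.2 ⟨Ideal.comap_isPrime _ _, ?_⟩ h1
        intro r hr
        rw [Ideal.mem_comap, Ideal.Quotient.eq_zero_iff_mem.mpr hr]
        exact Ideal.zero_mem _
      exact Ideal.map_le_iff_le_comap.mpr h2
  have h1 := rtk4_dim_le_quotient (S := S) (R := R ⧸ Module.annihilator R M) (M := M) htf hPT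
  refine h1.trans ?_
  refine ringKrullDim_le_of_surjective
    (Ideal.Quotient.lift P ((Ideal.Quotient.mk (P.map (Ideal.Quotient.mk
      (Module.annihilator R M)))).comp (Ideal.Quotient.mk (Module.annihilator R M))) ?_) ?_
  · intro r hr
    rw [RingHom.comp_apply, Ideal.Quotient.eq_zero_iff_mem]
    exact Ideal.mem_map_of_mem _ hr
  · intro y
    obtain ⟨t, rfl⟩ := Ideal.Quotient.mk_surjective y
    obtain ⟨r, rfl⟩ := Ideal.Quotient.mk_surjective t
    exact ⟨Ideal.Quotient.mk P r, by rw [Ideal.Quotient.lift_mk]; rfl⟩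

/-- **K4-dim, weak form, from a dimension bound.**  `R` a Noetherian domain with
`dim R ≤ dim S < ∞`; `M ≠ 0` finite and torsion-free over `S`, and `S` acts through `R`.
Then `M` is a faithful `R`-module. -/
theorem rtk4_faithful_weak_of_dim
    [Nontrivial S] [IsDomain R] [IsNoetherianRing R] [Module.Finite S M] [Nontrivial M]
    (hc : ∀ s : S, ∃ r : R, ∀ m : M, r • m = s • m)
    (htf : ∀ (s : S) (m : M), s • m = 0 → s = 0 ∨ m = 0)
    (hS : ringKrullDim S ≠ ⊤) (hRS : ringKrullDim R ≤ ringKrullDim S) :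
    Module.annihilator R M = ⊥ := by
  have hne : Module.annihilator R M ≠ ⊤ := by
    intro h
    obtain ⟨m, hm⟩ := exists_ne (0 : M)
    apply hm
    have : (1 : R) ∈ Module.annihilator R M := h ▸ Submodule.mem_top
    simpa using Module.mem_annihilator.mp this m
  obtain ⟨P, hP⟩ := Ideal.nonempty_minimalPrimes hne
  have hPprime : P.IsPrime := hP.1.1
  have h2 := rtk4_dim_le_quotient_weak hc htf hP
  have hbot : (⊥ : Ideal R).IsPrime := Ideal.isPrime_bot
  have hdim' : ringKrullDim (R ⧸ (⊥ : Ideal R)) ≤ ringKrullDim S := by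
    rw [ringKrullDim_eq_of_ringEquiv (RingEquiv.quotientBot R)]
    exact hRS
  have hPbot : P = ⊥ := by
    by_contra hne'
    have hlt : (⊥ : Ideal R) < P := lt_of_le_of_ne bot_le (Ne.symm hne')
    have h1 := rtk4_dim_succ_le_of_lt hlt
    have h3 : ringKrullDim (R ⧸ P) + 1 ≤ ringKrullDim (R ⧸ P) := h1.trans (hdim'.trans h2)
    have hnt : Nontrivial (R ⧸ P) := Ideal.Quotient.nontrivial_iff.mpr hPprime.ne_top
    refine rtk4_not_succ_le _ ?_ ?_ h3
    · exact (ringKrullDim_nonneg_of_nontrivial.trans_lt' (WithBot.bot_lt_coe _)).ne'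
    · intro htop
      apply hS
      rw [eq_top_iff, ← htop]
      refine le_trans ?_ (h1.trans hdim')
      exact le_add_of_nonneg_right zero_le_one
  rw [eq_bot_iff, ← hPbot]
  exact hP.1.2

/-- **K4-dim, weak form.**  `R` a Noetherian domain, integral over `S'` through `φ`,
`dim S' ≤ dim S < ∞`; `M ≠ 0` finite and torsion-free over `S`, and `S` acts through `R`.
Then `M` is a faithful `R`-module. -/
theorem rtk4_faithful_weak {S' : Type*} [CommRing S'] (φ : S' →+* R) (hφ : φ.IsIntegral)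
    [Nontrivial S] [IsDomain R] [IsNoetherianRing R] [Module.Finite S M] [Nontrivial M]
    (hc : ∀ s : S, ∃ r : R, ∀ m : M, r • m = s • m)
    (htf : ∀ (s : S) (m : M), s • m = 0 → s = 0 ∨ m = 0)
    (hS : ringKrullDim S ≠ ⊤) (hdim : ringKrullDim S' ≤ ringKrullDim S) :
    Module.annihilator R M = ⊥ := by
  letI : Algebra S' R := φ.toAlgebra
  haveI : Algebra.IsIntegral S' R := ⟨hφ⟩
  exact rtk4_faithful_weak_of_dim hc htf hS ((rtk4_dim_le_of_isIntegral (S' := S')).trans hdim)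

end Weak

section Rel

variable {R₁ Rχ Rb : Type*} [CommRing R₁] [CommRing Rχ] [CommRing Rb]
  {M₁ Mχ : Type*} [AddCommGroup M₁] [AddCommGroup Mχ] [Module R₁ M₁] [Module Rχ Mχ]

/-- **Support lemma, relational form.**  The reductions mod `λ` of `M₁` and `Mχ` are compared
through the relation `hrel`: if `a` kills `M₁` and `r` has the same image as `a` in the common
reduction `Rb`, then `r Mχ ⊆ λ Mχ`.  If `Mχ` has full support then every prime `𝔮` of `R₁` in
the special fibre contains `Ann(M₁)`. -/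
theorem rtk4_ann_le_of_rel [Module.Finite Rχ Mχ]
    (f₁ : R₁ →+* Rb) (fχ : Rχ →+* Rb) (hf₁ : Surjective f₁) (hfχ : Surjective fχ)
    (lam₁ : R₁) (lamχ : Rχ) (hk₁ : RingHom.ker f₁ ≤ Ideal.span {lam₁})
    (hkχ : fχ lamχ = 0)
    (hrel : ∀ (a : R₁) (r : Rχ), f₁ a = fχ r → (∀ m : M₁, a • m = 0) →
      ∀ m : Mχ, ∃ m' : Mχ, r • m = lamχ • m')
    (hχ : Module.annihilator Rχ Mχ ≤ nilradical Rχ)
    (𝔮 : Ideal R₁) [h𝔮 : 𝔮.IsPrime] (hlam : lam₁ ∈ 𝔮) :
    Module.annihilator R₁ M₁ ≤ 𝔮 := by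
  have hker𝔮 : RingHom.ker f₁ ≤ 𝔮 :=
    hk₁.trans ((Ideal.span_singleton_le_iff_mem (I := 𝔮)).mpr hlam)
  have h𝔮b : (Ideal.map f₁ 𝔮).IsPrime := Ideal.map_isPrime_of_surjective hf₁ hker𝔮
  have hmem₁ : ∀ r : R₁, f₁ r ∈ Ideal.map f₁ 𝔮 → r ∈ 𝔮 := by
    intro r hr
    have : r ∈ Ideal.comap f₁ (Ideal.map f₁ 𝔮) := hr
    rwa [Ideal.comap_map_of_surjective' f₁ hf₁, sup_eq_left.mpr hker𝔮] at this
  have h𝔮χ : (Ideal.comap fχ (Ideal.map f₁ 𝔮)).IsPrime := Ideal.comap_isPrime fχ _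
  have hlamχ : lamχ ∈ Ideal.comap fχ (Ideal.map f₁ 𝔮) := by
    rw [Ideal.mem_comap, hkχ]
    exact Ideal.zero_mem _
  have hAnnχ : Module.annihilator Rχ Mχ ≤ Ideal.comap fχ (Ideal.map f₁ 𝔮) :=
    hχ.trans (nilradical_le_prime _)
  intro a ha
  apply hmem₁
  obtain ⟨r, hr⟩ := hfχ (f₁ a)
  rw [← hr, ← Ideal.mem_comap]
  exact rtk4_mem_of_smul_le lamχ _ hlamχ hAnnχ r
    (hrel a r hr.symm (Module.mem_annihilator.mp ha))

end Rel

section Out

variable {S S' R₁ Rχ Rb : Type*} [CommRing S] [CommRing S'] [CommRing R₁] [CommRing Rχ]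
  [CommRing Rb]
  {M₁ Mχ : Type*} [AddCommGroup M₁] [AddCommGroup Mχ] [Module R₁ M₁] [Module Rχ Mχ]
  [Module S M₁] [Module S Mχ]

/-- **The output of the machine, weak module form, from a dimension bound.**
`Mχ` is faithful over the domain `Rχ` (dimension count), hence `Ann(M₁) ≤ 𝔮` for the prime `𝔮` of
the special fibre (support lemma); a prime `P` minimal over `Ann(M₁)` below `𝔮` contains `G`
(Cramer) and meets `S` in `0`; lying over gives a prime `P' ⊇ P` over `𝔞`, which contains the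
kernel of the action of `R₁` on `M₁ / 𝔞 M₁`. -/
theorem rtk4_out_weak_of_dim [Nontrivial S] [IsNoetherianRing R₁] [IsNoetherianRing Rχ] [IsDomain Rχ]
    [Module.Finite S M₁] [Module.Finite S Mχ] [Nontrivial Mχ]
    (hc₁ : ∀ s : S, ∃ r : R₁, ∀ m : M₁, r • m = s • m)
    (hcχ : ∀ s : S, ∃ r : Rχ, ∀ m : Mχ, r • m = s • m)
    (htf₁ : ∀ (s : S) (m : M₁), s • m = 0 → s = 0 ∨ m = 0)
    (htfχ : ∀ (s : S) (m : Mχ), s • m = 0 → s = 0 ∨ m = 0)
    (hS : ringKrullDim S ≠ ⊤)
    (hRS : ringKrullDim Rχ ≤ ringKrullDim S)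
    (f₁ : R₁ →+* Rb) (fχ : Rχ →+* Rb) (hf₁ : Surjective f₁) (hfχ : Surjective fχ)
    (lam₁ : R₁) (lamχ : Rχ) (hk₁ : RingHom.ker f₁ ≤ Ideal.span {lam₁})
    (hkχ : fχ lamχ = 0)
    (hrel : ∀ (a : R₁) (r : Rχ), f₁ a = fχ r → (∀ m : M₁, a • m = 0) →
      ∀ m : Mχ, ∃ m' : Mχ, r • m = lamχ • m')
    (𝔮 : Ideal R₁) [𝔮.IsPrime] (hlam : lam₁ ∈ 𝔮)
    (𝔞 : Ideal S) [𝔞.IsPrime] (G : Set R₁)
    (hCramer : ∀ x ∈ G, ∃ (s : S) (r : R₁) (D : R₁), s ≠ 0 ∧ (∀ m : M₁, r • m = s • m) ∧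
      D ∉ 𝔮 ∧ D * r * x = 0) :
    ∃ P' : Ideal R₁, P'.IsPrime ∧ Module.annihilator R₁ M₁ ≤ P' ∧ Ideal.span G ≤ P' ∧
      (∀ (s : S) (r : R₁), (∀ m : M₁, r • m = s • m) → (r ∈ P' ↔ s ∈ 𝔞)) ∧
      ∀ r : R₁, (∀ m : M₁, r • m ∈ (𝔞 • ⊤ : Submodule S M₁)) → r ∈ P' := by
  have hfinχ : Module.Finite Rχ Mχ := rtk4_finite_of_weak (S := S) hcχ
  have hfin₁ : Module.Finite R₁ M₁ := rtk4_finite_of_weak (S := S) hc₁
  have hfaith : Module.annihilator Rχ Mχ = ⊥ :=
    rtk4_faithful_weak_of_dim (S := S) hcχ htfχ hS hRS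
  have hAnn : Module.annihilator R₁ M₁ ≤ 𝔮 :=
    rtk4_ann_le_of_rel f₁ fχ hf₁ hfχ lam₁ lamχ hk₁ hkχ hrel (hfaith ▸ bot_le) 𝔮 hlam
  obtain ⟨P', hprime, hAnn', hG, hiff⟩ := rtk4_point_weak hc₁ htf₁ 𝔮 hAnn 𝔞 G hCramer
  refine ⟨P', hprime, hAnn', hG, hiff, ?_⟩
  intro r hr
  refine rtk4_mem_of_smul_le_ideal
    (Ideal.span {r : R₁ | ∃ s ∈ 𝔞, ∀ m : M₁, r • m = s • m}) P' ?_ hAnn' r ?_
  · rw [Ideal.span_le]
    rintro x ⟨s, hs, hx⟩
    exact (hiff s x hx).mpr hs
  · intro m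
    have key : ∀ y ∈ (𝔞 • ⊤ : Submodule S M₁),
        y ∈ ((Ideal.span {r : R₁ | ∃ s ∈ 𝔞, ∀ m : M₁, r • m = s • m}) • ⊤ :
          Submodule R₁ M₁) := by
      intro y hy
      induction hy using Submodule.smul_induction_on' with
      | smul s hs n _ =>
        obtain ⟨r', hr'⟩ := hc₁ s
        rw [← hr']
        exact Submodule.smul_mem_smul (Ideal.subset_span ⟨s, hs, hr'⟩) Submodule.mem_top
      | add x _ y _ hx hy => exact Submodule.add_mem _ hx hy
    exact key _ (hr m)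

/-- **The output of the machine, weak module form** (`Rχ` integral over `S'`,
`dim S' ≤ dim S`). -/
theorem rtk4_out_weak [Nontrivial S] [IsNoetherianRing R₁] [IsNoetherianRing Rχ] [IsDomain Rχ]
    [Module.Finite S M₁] [Module.Finite S Mχ] [Nontrivial Mχ]
    (hc₁ : ∀ s : S, ∃ r : R₁, ∀ m : M₁, r • m = s • m)
    (hcχ : ∀ s : S, ∃ r : Rχ, ∀ m : Mχ, r • m = s • m)
    (htf₁ : ∀ (s : S) (m : M₁), s • m = 0 → s = 0 ∨ m = 0)
    (htfχ : ∀ (s : S) (m : Mχ), s • m = 0 → s = 0 ∨ m = 0)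
    (hS : ringKrullDim S ≠ ⊤)
    (φ : S' →+* Rχ) (hφ : φ.IsIntegral) (hdim : ringKrullDim S' ≤ ringKrullDim S)
    (f₁ : R₁ →+* Rb) (fχ : Rχ →+* Rb) (hf₁ : Surjective f₁) (hfχ : Surjective fχ)
    (lam₁ : R₁) (lamχ : Rχ) (hk₁ : RingHom.ker f₁ ≤ Ideal.span {lam₁})
    (hkχ : fχ lamχ = 0)
    (hrel : ∀ (a : R₁) (r : Rχ), f₁ a = fχ r → (∀ m : M₁, a • m = 0) →
      ∀ m : Mχ, ∃ m' : Mχ, r • m = lamχ • m')
    (𝔮 : Ideal R₁) [𝔮.IsPrime] (hlam : lam₁ ∈ 𝔮)
    (𝔞 : Ideal S) [𝔞.IsPrime] (G : Set R₁)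
    (hCramer : ∀ x ∈ G, ∃ (s : S) (r : R₁) (D : R₁), s ≠ 0 ∧ (∀ m : M₁, r • m = s • m) ∧
      D ∉ 𝔮 ∧ D * r * x = 0) :
    ∃ P' : Ideal R₁, P'.IsPrime ∧ Module.annihilator R₁ M₁ ≤ P' ∧ Ideal.span G ≤ P' ∧
      (∀ (s : S) (r : R₁), (∀ m : M₁, r • m = s • m) → (r ∈ P' ↔ s ∈ 𝔞)) ∧
      ∀ r : R₁, (∀ m : M₁, r • m ∈ (𝔞 • ⊤ : Submodule S M₁)) → r ∈ P' := by
  letI : Algebra S' Rχ := φ.toAlgebra
  haveI : Algebra.IsIntegral S' Rχ := ⟨hφ⟩
  exact rtk4_out_weak_of_dim hc₁ hcχ htf₁ htfχ hS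
    ((rtk4_dim_le_of_isIntegral (S' := S')).trans hdim) f₁ fχ hf₁ hfχ lam₁ lamχ hk₁ hkχ hrel
    𝔮 hlam 𝔞 G hCramer

end Out

end Fermat.Agent.RT.K4
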